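/-
S55 / Program C, package C8, Mathlib-only core of leaf R1 (EXIST) (helper15).

* `exists_modulus` (R1-mod): given finitely many integers `t i ≥ 2` and exponents `f i ≠ 0`, there
  is a squarefree modulus `m`, prime to `p`, all of whose prime factors are `> B`, prime to every
  `t i`, such that every `t i ^ f i` has order divisible by `p ^ K` in `(ZMod m)ˣ`.
* `exists_cyclic_sub_of_orders` (R1-gal): in a finite abelian Galois extension `K / k`, given
  `r ≤ p ^ c` automorphisms of order divisible by `p ^ (k0 + c)`, there is a cyclic subextension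
  `E / k` of `p`-power degree on which each of them still has order divisible by `p ^ k0`.
* `exists_modulus_cyclic_layer` (R1-cyc): the two combined, for `K = k(ζ_m)`.

Inputs: helper35's landed N1 (`H35.primeOrder`) and N2 (`H35.cyclicQuotient`).
-/
import Mathlib
import Fermat.Agent.S55.H35.PrimeOrder
import Fermat.Agent.S55.H35.CyclicQuotient

set_option autoImplicit false

namespace Fermat.Agent.S55.H15

open IntermediateField

/-- Auxiliary: `p ^ K` divides `p ^ s / gcd (p ^ s, f)` when `K + v_p(f) ≤ s`. -/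
theorem pow_dvd_pow_div_gcd {p : ℕ} (hp : p.Prime) {s f K : ℕ} (hf : f ≠ 0)
    (hs : K + f.factorization p ≤ s) : p ^ K ∣ p ^ s / Nat.gcd (p ^ s) f := by
  obtain ⟨j, hjs, hj⟩ := (Nat.dvd_prime_pow hp).mp (Nat.gcd_dvd_left (p ^ s) f)
  have hjf : j ≤ f.factorization p :=
    (hp.pow_dvd_iff_le_factorization hf).mp (hj ▸ Nat.gcd_dvd_right (p ^ s) f)
  rw [hj, Nat.pow_div hjs hp.pos]
  exact pow_dvd_pow p (by omega)

/-- **R1-mod.**  A squarefree modulus `m`, prime to `p`, with all prime factors `> B`, prime to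
every `t i`, in which every `t i ^ f i` has order divisible by `p ^ K`. -/
theorem exists_modulus (p : ℕ) (hp : p.Prime) (hp2 : p ≠ 2) (r : ℕ) (t f : Fin r → ℕ)
    (ht : ∀ i, 2 ≤ t i) (hf : ∀ i, f i ≠ 0) (B K : ℕ) :
    ∃ m : ℕ, Squarefree m ∧ Nat.Coprime m p ∧ (∀ q, q.Prime → q ∣ m → B < q) ∧
      (∀ i, Nat.Coprime m (t i)) ∧
      ∀ i, ∀ u : (ZMod m)ˣ, (u : ZMod m) = ((t i ^ f i : ℕ) : ZMod m) → p ^ K ∣ orderOf u := by
  classical
  set B' := B + ∑ i, t i with hB'
  set s := K + B' + 1 + ∑ i, (f i).factorization p with hs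
  have hs1 : 1 ≤ s := by omega
  have hti : ∀ i, t i ≤ B' := fun i => by
    have : t i ≤ ∑ j, t j := Finset.single_le_sum (f := t) (fun _ _ => Nat.zero_le _)
      (Finset.mem_univ i)
    omega
  have hfi : ∀ i, K + (f i).factorization p ≤ s := fun i => by
    have : (f i).factorization p ≤ ∑ j, (f j).factorization p :=
      Finset.single_le_sum (f := fun j => (f j).factorization p) (fun _ _ => Nat.zero_le _)
        (Finset.mem_univ i)
    omega
  choose q hq hqp hqt hqo using fun i => H35.primeOrder p hp hp2 (t i) (ht i) s hs1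
  -- every `q i` is large
  have hqbig : ∀ i, B' < q i := fun i => by
    have : Fact (q i).Prime := ⟨hq i⟩
    have hne : ((t i : ℕ) : ZMod (q i)) ≠ 0 := by
      rw [Ne, ZMod.natCast_eq_zero_iff]
      exact hqt i
    have h1 : p ^ s ∣ q i - 1 := by
      rw [← hqo i]
      exact orderOf_dvd_of_pow_eq_one (ZMod.pow_card_sub_one_eq_one hne)
    have h2 : p ^ s ≤ q i - 1 := Nat.le_of_dvd (Nat.sub_pos_of_lt (hq i).one_lt) h1
    have h3 : s < p ^ s := Nat.lt_pow_self hp.one_lt
    omega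
  refine ⟨∏ x ∈ Finset.univ.image q, x, ?_, ?_, ?_, ?_, ?_⟩
  · refine Finset.squarefree_prod_of_pairwise_isCoprime ?_ ?_
    · intro x hx y hy hxy
      obtain ⟨i, -, rfl⟩ := Finset.mem_image.mp hx
      obtain ⟨j, -, rfl⟩ := Finset.mem_image.mp hy
      exact Nat.coprime_iff_isRelPrime.mp ((Nat.coprime_primes (hq i) (hq j)).mpr hxy)
    · intro x hx
      obtain ⟨i, -, rfl⟩ := Finset.mem_image.mp hx
      exact (hq i).squarefree
  · refine Nat.Coprime.prod_left fun x hx => ?_
    obtain ⟨i, -, rfl⟩ := Finset.mem_image.mp hx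
    exact (Nat.coprime_primes (hq i) hp).mpr (hqp i)
  · intro q' hq' hdvd
    obtain ⟨x, hx, hx'⟩ := (Prime.dvd_finsetProd_iff hq'.prime _).mp hdvd
    obtain ⟨i, -, rfl⟩ := Finset.mem_image.mp hx
    have : q' = q i := (Nat.prime_dvd_prime_iff_eq hq' (hq i)).mp hx'
    rw [this]
    have := hqbig i
    omega
  · intro i
    refine Nat.Coprime.prod_left fun x hx => ?_
    obtain ⟨j, -, rfl⟩ := Finset.mem_image.mp hx
    refine (Nat.Prime.coprime_iff_not_dvd (hq j)).mpr ?_
    have h1 := hqbig j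
    have h2 := hti i
    exact Nat.not_dvd_of_pos_of_lt (by have := ht i; omega) (by omega)
  · intro i u hu
    have hdvd : q i ∣ ∏ x ∈ Finset.univ.image q, x :=
      Finset.dvd_prod_of_mem _ (Finset.mem_image_of_mem q (Finset.mem_univ i))
    let φ : ZMod (∏ x ∈ Finset.univ.image q, x) →+* ZMod (q i) := ZMod.castHom hdvd (ZMod (q i))
    have h1 : orderOf (Units.map (φ : ZMod (∏ x ∈ Finset.univ.image q, x) →* ZMod (q i)) u)
        ∣ orderOf u := orderOf_map_dvd _ u
    have h2 : orderOf (Units.map (φ : ZMod (∏ x ∈ Finset.univ.image q, x) →* ZMod (q i)) u)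
        = orderOf ((t i : ZMod (q i)) ^ f i) := by
      rw [← orderOf_units]
      congr 1
      show φ (u : ZMod (∏ x ∈ Finset.univ.image q, x)) = _
      rw [hu, map_natCast, Nat.cast_pow]
    have h3 : orderOf ((t i : ZMod (q i)) ^ f i) = p ^ s / Nat.gcd (p ^ s) (f i) := by
      rw [orderOf_pow' _ (hf i), hqo i]
    rw [h2, h3] at h1
    exact (pow_dvd_pow_div_gcd hp (hf i) (hfi i)).trans h1

/-- N2 for a group which is commutative by hypothesis (no `CommGroup` instance needed). -/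
theorem cyclicQuotient_of_comm (p : ℕ) (hp : p.Prime) {G : Type} [Group G] [Finite G]
    (hab : ∀ x y : G, x * y = y * x) (r k0 c : ℕ) (g : Fin r → G) (hr : r ≤ p ^ c)
    (hg : ∀ i, p ^ (k0 + c) ∣ orderOf (g i)) :
    ∃ (n : ℕ) (ψ : G →* Multiplicative (ZMod (p ^ n))),
      Function.Surjective ψ ∧ ∀ i, p ^ k0 ∣ orderOf (ψ (g i)) := by
  let _ : CommGroup G := { (inferInstance : Group G) with mul_comm := hab }
  exact H35.cyclicQuotient p hp G r k0 c g hr hg

/-- Two homomorphisms with the same kernel give the same orders. -/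
theorem orderOf_eq_of_ker_eq {G H₁ H₂ : Type*} [Group G] [Group H₁] [Group H₂] (φ₁ : G →* H₁)
    (φ₂ : G →* H₂) (h : φ₁.ker = φ₂.ker) (x : G) : orderOf (φ₁ x) = orderOf (φ₂ x) := by
  rw [orderOf_eq_orderOf_iff]
  intro n
  rw [← map_pow, ← map_pow, ← MonoidHom.mem_ker, ← MonoidHom.mem_ker, h]

/-- **R1-gal.**  In a finite abelian Galois extension `K / k`, given `r ≤ p ^ c` automorphisms
whose orders are divisible by `p ^ (k0 + c)`, there is an intermediate field `E`, Galois and
cyclic over `k` of `p`-power degree, such that the restriction of each of them to `E` has order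
divisible by `p ^ k0`. -/
theorem exists_cyclic_sub_of_orders (p : ℕ) (hp : p.Prime) {k K : Type} [Field k] [Field K]
    [Algebra k K] [FiniteDimensional k K] [IsGalois k K]
    (hab : ∀ x y : K ≃ₐ[k] K, x * y = y * x) (r k0 c : ℕ) (g : Fin r → (K ≃ₐ[k] K))
    (hr : r ≤ p ^ c) (hg : ∀ i, p ^ (k0 + c) ∣ orderOf (g i)) :
    ∃ (E : IntermediateField k K) (_ : IsGalois k E) (n : ℕ), IsCyclic (E ≃ₐ[k] E) ∧
      Module.finrank k E = p ^ n ∧
      ∀ i, p ^ k0 ∣ orderOf (AlgEquiv.restrictNormalHom E (g i)) := by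
  obtain ⟨n, ψ, hψ, hord⟩ := cyclicQuotient_of_comm p hp hab r k0 c g hr hg
  have hfix : (IntermediateField.fixedField ψ.ker).fixingSubgroup = ψ.ker :=
    IntermediateField.fixingSubgroup_fixedField ψ.ker
  have hker : (AlgEquiv.restrictNormalHom (IntermediateField.fixedField ψ.ker)).ker = ψ.ker := by
    rw [IntermediateField.restrictNormalHom_ker, hfix]
  let e₁ : (K ≃ₐ[k] K) ⧸ ψ.ker ≃* Multiplicative (ZMod (p ^ n)) :=
    QuotientGroup.quotientKerEquivOfSurjective ψ hψ
  let e₂ : (K ≃ₐ[k] K) ⧸ ψ.ker ≃*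
      (IntermediateField.fixedField ψ.ker ≃ₐ[k] IntermediateField.fixedField ψ.ker) :=
    IsGalois.normalAutEquivQuotient ψ.ker
  let e : Multiplicative (ZMod (p ^ n)) ≃*
      (IntermediateField.fixedField ψ.ker ≃ₐ[k] IntermediateField.fixedField ψ.ker) :=
    e₁.symm.trans e₂
  refine ⟨IntermediateField.fixedField ψ.ker, inferInstance, n, ?_, ?_, ?_⟩
  · exact isCyclic_of_surjective e.toMonoidHom e.surjective
  · rw [← IsGalois.card_aut_eq_finrank, ← Nat.card_congr e.toEquiv]
    show Nat.card (ZMod (p ^ n)) = p ^ n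
    exact Nat.card_zmod (p ^ n)
  · intro i
    rw [orderOf_eq_of_ker_eq _ ψ hker (g i)]
    exact hord i

/-- **R1-cyc.**  Given integers `t i ≥ 2`, exponents `f i ≠ 0`, a bound `B` and `k0`, there is a
squarefree modulus `m`, prime to `p`, with all prime factors `> B` and prime to every `t i`, such
that: for every `m`-th cyclotomic extension `K / k` and every family of automorphisms `g i` acting
on the `m`-th roots of unity by `ζ ↦ ζ ^ (t i ^ f i)`, there is an intermediate field `E`, Galois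
and cyclic over `k` of `p`-power degree, on which every `g i` has order divisible by `p ^ k0`. -/
theorem exists_modulus_cyclic_layer (p : ℕ) (hp : p.Prime) (hp2 : p ≠ 2) (r : ℕ)
    (t f : Fin r → ℕ) (ht : ∀ i, 2 ≤ t i) (hf : ∀ i, f i ≠ 0) (B k0 : ℕ) :
    ∃ m : ℕ, Squarefree m ∧ Nat.Coprime m p ∧ (∀ q, q.Prime → q ∣ m → B < q) ∧
      (∀ i, Nat.Coprime m (t i)) ∧
      ∀ (k K : Type) [Field k] [Field K] [Algebra k K] [IsCyclotomicExtension {m} k K]
        (g : Fin r → (K ≃ₐ[k] K)),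
        (∀ i, ∀ ζ : K, ζ ^ m = 1 → g i ζ = ζ ^ (t i ^ f i)) →
        ∃ (E : IntermediateField k K) (_ : IsGalois k E) (n : ℕ), IsCyclic (E ≃ₐ[k] E) ∧
          Module.finrank k E = p ^ n ∧
          ∀ i, p ^ k0 ∣ orderOf (AlgEquiv.restrictNormalHom E (g i)) := by
  obtain ⟨m, hsq, hmp, hmB, hmt, hmo⟩ := exists_modulus p hp hp2 r t f ht hf B (k0 + r)
  refine ⟨m, hsq, hmp, hmB, hmt, ?_⟩
  intro k K _ _ _ _ g hg
  have hm0 : m ≠ 0 := hsq.ne_zero
  have : NeZero m := ⟨hm0⟩
  have : FiniteDimensional k K := IsCyclotomicExtension.finiteDimensional {m} k K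
  have : IsGalois k K := IsCyclotomicExtension.isGalois {m} k K
  have hζ := IsCyclotomicExtension.zeta_spec m k K
  set ζ := IsCyclotomicExtension.zeta m k K
  have hinj : Function.Injective (hζ.autToPow k) := hζ.autToPow_injective k
  have hab : ∀ x y : K ≃ₐ[k] K, x * y = y * x := fun x y => by
    apply hinj
    rw [map_mul, map_mul, mul_comm]
  refine exists_cyclic_sub_of_orders p hp hab r k0 r g (Nat.lt_pow_self hp.one_lt).le ?_
  intro i
  rw [← orderOf_injective (hζ.autToPow k) hinj (g i)]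
  refine hmo i _ ?_
  have h1 : ζ ^ ((hζ.autToPow k (g i) : (ZMod m)ˣ) : ZMod m).val = ζ ^ (t i ^ f i) := by
    rw [hζ.autToPow_spec k (g i), hg i ζ hζ.pow_eq_one]
  have h2 : ((hζ.autToPow k (g i) : (ZMod m)ˣ) : ZMod m).val ≡ t i ^ f i [MOD m] := by
    have hfin : IsOfFinOrder ζ :=
      isOfFinOrder_iff_pow_eq_one.mpr ⟨m, Nat.pos_of_ne_zero hm0, hζ.pow_eq_one⟩
    have := hfin.pow_eq_pow_iff_modEq.mp h1
    rwa [← hζ.eq_orderOf] at this
  rw [← ZMod.natCast_zmod_val ((hζ.autToPow k (g i) : (ZMod m)ˣ) : ZMod m)]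
  exact (ZMod.natCast_eq_natCast_iff _ _ _).mpr h2

/-- **R1-cyc inside an arbitrary extension.**  Same modulus `m` as in
`exists_modulus_cyclic_layer`, but for an arbitrary field extension `Ω / k` containing a primitive
`m`-th root of unity `ζ` and automorphisms `g i` of `Ω / k` acting on the `m`-th roots of unity by
`ζ ↦ ζ ^ (t i ^ f i)`: there is an intermediate field `E ≤ k(ζ)` of `Ω / k`, Galois and cyclic
over `k` of `p`-power degree, on which every `g i` has order divisible by `p ^ k0`. -/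
theorem exists_modulus_cyclic_layer_in (p : ℕ) (hp : p.Prime) (hp2 : p ≠ 2) (r : ℕ)
    (t f : Fin r → ℕ) (ht : ∀ i, 2 ≤ t i) (hf : ∀ i, f i ≠ 0) (B k0 : ℕ) :
    ∃ m : ℕ, Squarefree m ∧ Nat.Coprime m p ∧ (∀ q, q.Prime → q ∣ m → B < q) ∧
      (∀ i, Nat.Coprime m (t i)) ∧
      ∀ (k Ω : Type) [Field k] [Field Ω] [Algebra k Ω] (ζ : Ω), IsPrimitiveRoot ζ m →
        ∀ g : Fin r → (Ω ≃ₐ[k] Ω), (∀ i, ∀ ξ : Ω, ξ ^ m = 1 → g i ξ = ξ ^ (t i ^ f i)) →
        ∃ (E : IntermediateField k Ω) (_ : IsGalois k E) (n : ℕ), E ≤ k⟮ζ⟯ ∧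
          IsCyclic (E ≃ₐ[k] E) ∧ Module.finrank k E = p ^ n ∧
          ∀ i, p ^ k0 ∣ orderOf (AlgEquiv.restrictNormalHom E (g i)) := by
  obtain ⟨m, hsq, hmp, hmB, hmt, hm⟩ := exists_modulus_cyclic_layer p hp hp2 r t f ht hf B k0
  refine ⟨m, hsq, hmp, hmB, hmt, ?_⟩
  intro k Ω _ _ _ ζ hζ g hg
  have hm0 : m ≠ 0 := hsq.ne_zero
  have : NeZero m := ⟨hm0⟩
  have halg : IsAlgebraic k ζ :=
    ((hζ.isIntegral (Nat.pos_of_ne_zero hm0)).tower_top (A := k)).isAlgebraic
  have hcyc : IsCyclotomicExtension {m} k k⟮ζ⟯ := by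
    change IsCyclotomicExtension {m} k (IntermediateField.adjoin k {ζ}).toSubalgebra
    rw [IntermediateField.adjoin_simple_toSubalgebra_of_isAlgebraic halg]
    exact hζ.adjoin_isCyclotomicExtension k
  have hgal : IsGalois k k⟮ζ⟯ := IsCyclotomicExtension.isGalois {m} k k⟮ζ⟯
  obtain ⟨E', hE'gal, n, hE'cyc, hE'deg, hE'ord⟩ :=
    hm k k⟮ζ⟯ (fun i => AlgEquiv.restrictNormalHom k⟮ζ⟯ (g i)) (fun i ξ hξ => by
      apply Subtype.ext
      rw [AlgEquiv.restrictNormalHom_apply]
      have := hg i (ξ : Ω) (by rw [← SubmonoidClass.coe_pow, hξ]; rfl)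
      rw [this]
      rfl)
  let e : E' ≃ₐ[k] IntermediateField.lift E' := IntermediateField.liftAlgEquiv E'
  have hgalE : IsGalois k (IntermediateField.lift E') := IsGalois.of_algEquiv e
  refine ⟨IntermediateField.lift E', hgalE, n, IntermediateField.lift_le E', ?_, ?_, ?_⟩
  · exact isCyclic_of_surjective (AlgEquiv.autCongr e).toMonoidHom (AlgEquiv.autCongr e).surjective
  · rw [← hE'deg]; exact (LinearEquiv.finrank_eq e.toLinearEquiv).symm
  · intro i
    have hker : (AlgEquiv.restrictNormalHom (F := k) (K₁ := Ω) (IntermediateField.lift E')).ker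
        = ((AlgEquiv.restrictNormalHom (F := k) (K₁ := k⟮ζ⟯) E').comp
            (AlgEquiv.restrictNormalHom (F := k) (K₁ := Ω) k⟮ζ⟯)).ker := by
      ext x
      rw [MonoidHom.mem_ker, MonoidHom.mem_ker, MonoidHom.comp_apply]
      constructor
      · intro h
        apply AlgEquiv.ext
        intro y
        apply Subtype.ext
        apply Subtype.ext
        have h1 := congrArg (fun σ => ((σ (e y) : IntermediateField.lift E') : Ω)) h
        simp only [AlgEquiv.restrictNormalHom_apply, AlgEquiv.one_apply] at h1 ⊢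
        exact h1
      · intro h
        apply AlgEquiv.ext
        intro y
        apply Subtype.ext
        have h1 := congrArg (fun σ => (((σ (e.symm y) : E') : k⟮ζ⟯) : Ω)) h
        simp only [AlgEquiv.restrictNormalHom_apply, AlgEquiv.one_apply] at h1 ⊢
        have h2 : (((e.symm y : E') : k⟮ζ⟯) : Ω) = (y : Ω) := by
          have := congrArg (fun z : IntermediateField.lift E' => (z : Ω)) (e.apply_symm_apply y)
          exact this
        rw [h2] at h1
        exact h1
    have := orderOf_eq_of_ker_eq _ _ hker (g i)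
    rw [this]
    exact hE'ord i

end Fermat.Agent.S55.H15
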