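/-
S55 / Program C, package C8 leaf Z1 (helper15): the layers of the cyclotomic `ℤ_p`-extension.

* `exists_cyclic_sub` : a finite Galois extension `K / k` with cyclic group has, for every
  divisor `d` of `[K : k]`, an intermediate field `E` which is Galois and cyclic over `k` of
  degree `d`.
* `isCyclic_aut_of_isCyclotomicExtension` : for an odd prime `p`, `Gal(k(ζ_{p^r}) / k)` is cyclic.
* `pow_dvd_finrank_of_isCyclotomicExtension` : `p ^ a ∣ [k(ζ_{p^r}) : k]` as soon as
  `r = a + 1 + v_p([k : ℚ])`, for a number field `k`.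
* `exists_cyclic_layer` (Z1, abstract form) and `exists_cyclic_layer_in` (inside any extension
  `Ω` of `k` containing a primitive `p^r`-th root of unity).

Mathlib only.
-/
import Mathlib

set_option autoImplicit false

namespace Fermat.Agent.S55.H15

open IntermediateField Module

/-- A finite Galois extension with cyclic Galois group has a cyclic Galois subextension of every
degree `d` dividing its degree. -/
theorem exists_cyclic_sub {k K : Type*} [Field k] [Field K] [Algebra k K] [FiniteDimensional k K]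
    [IsGalois k K] (hcyc : IsCyclic (K ≃ₐ[k] K)) (d : ℕ) (hd : d ∣ Module.finrank k K) :
    ∃ E : IntermediateField k K, IsGalois k E ∧ IsCyclic (E ≃ₐ[k] E) ∧ Module.finrank k E = d := by
  classical
  obtain ⟨m, hm⟩ := hd
  have hn0 : Module.finrank k K ≠ 0 := Module.finrank_pos.ne'
  have hd0 : d ≠ 0 := by rintro rfl; exact hn0 (by rw [hm, zero_mul])
  have hm0 : m ≠ 0 := by rintro rfl; exact hn0 (by rw [hm, mul_zero])
  have hcard : Nat.card (K ≃ₐ[k] K) = Module.finrank k K := IsGalois.card_aut_eq_finrank k K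
  obtain ⟨g, hg⟩ := hcyc.exists_generator
  have hord : orderOf g = d * m := by
    rw [orderOf_eq_card_of_forall_mem_zpowers hg, hcard, hm]
  let H : Subgroup (K ≃ₐ[k] K) := Subgroup.zpowers (g ^ d)
  have hHcard : Nat.card H = m := by
    rw [Nat.card_zpowers, orderOf_pow_of_dvd hd0 (by rw [hord]; exact dvd_mul_right d m), hord,
      Nat.mul_div_cancel_left m (Nat.pos_of_ne_zero hd0)]
  have hcomm : ∀ x y : K ≃ₐ[k] K, x * y = y * x := by
    intro x y
    obtain ⟨i, rfl⟩ := Subgroup.mem_zpowers_iff.mp (hg x)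
    obtain ⟨j, rfl⟩ := Subgroup.mem_zpowers_iff.mp (hg y)
    rw [← zpow_add, ← zpow_add, add_comm]
  have hN : H.Normal := ⟨fun x hx y => by
    have : y * x * y⁻¹ = x := by rw [hcomm y x, mul_inv_cancel_right]
    rw [this]; exact hx⟩
  refine ⟨IntermediateField.fixedField H, inferInstance, ?_, ?_⟩
  · have h1 : IsCyclic ((K ≃ₐ[k] K) ⧸ H) :=
      isCyclic_of_surjective (QuotientGroup.mk' H) (QuotientGroup.mk'_surjective H)
    exact isCyclic_of_surjective (IsGalois.normalAutEquivQuotient H).toMonoidHom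
      (IsGalois.normalAutEquivQuotient H).surjective
  · have h1 : Module.finrank (IntermediateField.fixedField H) K = m := by
      rw [IntermediateField.finrank_fixedField_eq_card, hHcard]
    have h2 : Module.finrank k (IntermediateField.fixedField H)
        * Module.finrank (IntermediateField.fixedField H) K = Module.finrank k K :=
      Module.finrank_mul_finrank k (IntermediateField.fixedField H) K
    rw [h1, hm] at h2
    exact Nat.eq_of_mul_eq_mul_right (Nat.pos_of_ne_zero hm0) h2

/-- For an odd prime `p`, the Galois group of a `p^r`-th cyclotomic extension is cyclic. -/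
theorem isCyclic_aut_of_isCyclotomicExtension (p : ℕ) (hp : p.Prime) (hp2 : p ≠ 2) (r : ℕ)
    (k K : Type*) [Field k] [Field K] [Algebra k K] [IsCyclotomicExtension {p ^ r} k K] :
    IsCyclic (K ≃ₐ[k] K) := by
  have : NeZero (p ^ r) := ⟨pow_ne_zero r hp.ne_zero⟩
  have : IsCyclic (ZMod (p ^ r))ˣ := ZMod.isCyclic_units_of_prime_pow p hp hp2 r
  have hζ := IsCyclotomicExtension.zeta_spec (p ^ r) k K
  exact isCyclic_of_injective (hζ.autToPow k) (hζ.autToPow_injective k)

/-- The exponent of the cyclotomic level from which on the layer of degree `p ^ a` of the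
cyclotomic `ℤ_p`-extension of `k` is available: `a + 1 + v_p([k : ℚ])`. -/
noncomputable def cycloLevel (p : ℕ) (k : Type*) [Field k] [NumberField k] (a : ℕ) : ℕ :=
  a + 1 + (Module.finrank ℚ k).factorization p

theorem cycloLevel_pos (p : ℕ) (k : Type*) [Field k] [NumberField k] (a : ℕ) :
    0 < cycloLevel p k a := by
  unfold cycloLevel; omega

/-- `p ^ a` divides `[k(ζ_{p^r}) : k]` for every `r ≥ cycloLevel p k a = a + 1 + v_p([k : ℚ])`. -/
theorem pow_dvd_finrank_of_isCyclotomicExtension (p : ℕ) (hp : p.Prime) (k : Type*) [Field k]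
    [NumberField k] (a r : ℕ) (hr : cycloLevel p k a ≤ r) (K : Type*) [Field K] [Algebra k K]
    [IsCyclotomicExtension {p ^ r} k K] :
    p ^ a ∣ Module.finrank k K := by
  have hpos : 0 < p ^ r := pow_pos hp.pos r
  have : NeZero (p ^ r) := ⟨hpos.ne'⟩
  have : FiniteDimensional k K := IsCyclotomicExtension.finiteDimensional {p ^ r} k K
  have : CharZero K := charZero_of_injective_algebraMap (algebraMap k K).injective
  have hζ := IsCyclotomicExtension.zeta_spec (p ^ r) k K
  set ζ := IsCyclotomicExtension.zeta (p ^ r) k K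
  have hint : IsIntegral ℚ ζ := (hζ.isIntegral hpos).tower_top
  have h1 : Module.finrank ℚ ℚ⟮ζ⟯ = Nat.totient (p ^ r) := by
    rw [IntermediateField.adjoin.finrank hint, ← Polynomial.cyclotomic_eq_minpoly_rat hζ hpos,
      Polynomial.natDegree_cyclotomic]
  have h2 : Module.finrank ℚ ℚ⟮ζ⟯ * Module.finrank ℚ⟮ζ⟯ K = Module.finrank ℚ K :=
    Module.finrank_mul_finrank ℚ ℚ⟮ζ⟯ K
  have h3 : Module.finrank ℚ k * Module.finrank k K = Module.finrank ℚ K :=
    Module.finrank_mul_finrank ℚ k K
  have hD0 : Module.finrank ℚ k ≠ 0 := Module.finrank_pos.ne'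
  have hX0 : Module.finrank k K ≠ 0 := Module.finrank_pos.ne'
  obtain ⟨s, hs⟩ : ∃ s, r = (a + (Module.finrank ℚ k).factorization p + s) + 1 :=
    ⟨r - cycloLevel p k a, by unfold cycloLevel at hr ⊢; omega⟩
  have h4 : p ^ (a + (Module.finrank ℚ k).factorization p)
      ∣ Module.finrank ℚ k * Module.finrank k K := by
    rw [h3, ← h2, h1, hs, Nat.totient_prime_pow_succ hp]
    exact Dvd.dvd.mul_right (Dvd.dvd.mul_right (pow_dvd_pow p (Nat.le_add_right _ s)) _) _
  rw [hp.pow_dvd_iff_le_factorization (mul_ne_zero hD0 hX0), Nat.factorization_mul hD0 hX0,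
    Finsupp.add_apply] at h4
  rw [hp.pow_dvd_iff_le_factorization hX0]
  omega

/-- **Z1 (abstract form).**  Let `k` be a number field, `p` an odd prime and `a ≥ 0`.  For
`r ≥ cycloLevel p k a`, every `p^r`-th cyclotomic extension `K` of `k` contains an intermediate
field `E`, Galois and cyclic over `k`, of degree exactly `p ^ a`. -/
theorem exists_cyclic_layer (p : ℕ) (hp : p.Prime) (hp2 : p ≠ 2) (k : Type*) [Field k]
    [NumberField k] (a r : ℕ) (hr : cycloLevel p k a ≤ r) (K : Type*) [Field K] [Algebra k K]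
    [IsCyclotomicExtension {p ^ r} k K] :
    ∃ E : IntermediateField k K, IsGalois k E ∧ IsCyclic (E ≃ₐ[k] E)
      ∧ Module.finrank k E = p ^ a := by
  have : NeZero (p ^ r) := ⟨pow_ne_zero _ hp.ne_zero⟩
  have : FiniteDimensional k K := IsCyclotomicExtension.finiteDimensional {p ^ r} k K
  have : IsGalois k K := IsCyclotomicExtension.isGalois {p ^ r} k K
  exact exists_cyclic_sub (isCyclic_aut_of_isCyclotomicExtension p hp hp2 r k K) (p ^ a)
    (pow_dvd_finrank_of_isCyclotomicExtension p hp k a r hr K)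

/-- **Z1 (existential form)**: there is a level `r > 0` which works for every `p^r`-th cyclotomic
extension of `k`. -/
theorem exists_level_cyclic_layer (p : ℕ) (hp : p.Prime) (hp2 : p ≠ 2) (k : Type*) [Field k]
    [NumberField k] (a : ℕ) :
    ∃ r : ℕ, 0 < r ∧ ∀ (K : Type*) [Field K] [Algebra k K] [IsCyclotomicExtension {p ^ r} k K],
      ∃ E : IntermediateField k K, IsGalois k E ∧ IsCyclic (E ≃ₐ[k] E)
        ∧ Module.finrank k E = p ^ a := by
  refine ⟨cycloLevel p k a, cycloLevel_pos p k a, ?_⟩
  intro K _ _ _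
  exact exists_cyclic_layer p hp hp2 k a _ le_rfl K

/-- **Z1 inside an arbitrary extension.**  If `Ω / k` is any field extension containing a
primitive `p^r`-th root of unity `ζ`, `r ≥ cycloLevel p k a`, then there is an intermediate field
`E ≤ k(ζ)` of `Ω / k`, Galois and cyclic over `k`, of degree exactly `p ^ a`. -/
theorem exists_cyclic_layer_in (p : ℕ) (hp : p.Prime) (hp2 : p ≠ 2) (k : Type*) [Field k]
    [NumberField k] (a r : ℕ) (hr : cycloLevel p k a ≤ r) (Ω : Type*) [Field Ω] [Algebra k Ω]
    (ζ : Ω) (hζ : IsPrimitiveRoot ζ (p ^ r)) :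
    ∃ E : IntermediateField k Ω, E ≤ k⟮ζ⟯ ∧ IsGalois k E ∧ IsCyclic (E ≃ₐ[k] E)
      ∧ Module.finrank k E = p ^ a := by
  have hpos : 0 < p ^ r := pow_pos hp.pos r
  have : NeZero (p ^ r) := ⟨hpos.ne'⟩
  have halg : IsAlgebraic k ζ := ((hζ.isIntegral hpos).tower_top (A := k)).isAlgebraic
  have : IsCyclotomicExtension {p ^ r} k k⟮ζ⟯ := by
    change IsCyclotomicExtension {p ^ r} k (IntermediateField.adjoin k {ζ}).toSubalgebra
    rw [IntermediateField.adjoin_simple_toSubalgebra_of_isAlgebraic halg]
    exact hζ.adjoin_isCyclotomicExtension k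
  obtain ⟨E', hgal, hcyc, hdeg⟩ := exists_cyclic_layer p hp hp2 k a r hr k⟮ζ⟯
  let e : E' ≃ₐ[k] IntermediateField.lift E' := IntermediateField.liftAlgEquiv E'
  refine ⟨IntermediateField.lift E', IntermediateField.lift_le E', ?_, ?_, ?_⟩
  · exact IsGalois.of_algEquiv e
  · exact isCyclic_of_surjective (AlgEquiv.autCongr e).toMonoidHom (AlgEquiv.autCongr e).surjective
  · rw [← hdeg]; exact (LinearEquiv.finrank_eq e.toLinearEquiv).symm

end Fermat.Agent.S55.H15
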