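/-
S55 / Program C, package C8 leaf Z1 (helper15), Prelude model: the layers of the cyclotomic
`ℤ_p`-extension of a number field `k ⊆ ℚ̄`, as intermediate fields of `ℚ̄ / ℚ`.

* `exists_cyclic_layer_qbar` : for `k` finite over `ℚ`, `p` odd, `a ≥ 0` there are `r > 0`, a
  primitive `p^r`-th root of unity `ζ ∈ ℚ̄` and `E` with `k ≤ E ≤ k(ζ)` such that `E / k` is Galois,
  cyclic, of degree exactly `p ^ a`.
* `exists_cyclic_layer_unramified` : if moreover `k` is unramified outside `S ∋ p`, so is `E`.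
-/
import Fermat.Agent.S55.H15.CycloLayer
import Fermat.Agent.S55.H87.UnrKummer

set_option autoImplicit false

namespace Fermat.Agent.S55.H15

open IntermediateField

local notation "Qb" => AlgebraicClosure ℚ

/-- `ℚ̄` contains primitive `n`-th roots of unity for every `n ≠ 0`. -/
theorem exists_isPrimitiveRoot_qbar (n : ℕ) (hn : n ≠ 0) : ∃ ζ : Qb, IsPrimitiveRoot ζ n := by
  have : NeZero n := ⟨hn⟩
  exact HasEnoughRootsOfUnity.exists_primitiveRoot Qb n

/-- **Z1 in the Prelude model.**  Let `k ⊆ ℚ̄` be a number field, `p` an odd prime and `a ≥ 0`.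
There are `r > 0`, a primitive `p^r`-th root of unity `ζ` and an intermediate field
`k ≤ E ≤ k(ζ)` such that `E / k` is Galois, cyclic, of degree exactly `p ^ a`. -/
theorem exists_cyclic_layer_qbar (p : ℕ) (hp : p.Prime) (hp2 : p ≠ 2)
    (k : IntermediateField ℚ Qb) [FiniteDimensional ℚ k] (a : ℕ) :
    ∃ (r : ℕ) (ζ : Qb) (E : IntermediateField ℚ Qb) (h : k ≤ E), 0 < r ∧
      IsPrimitiveRoot ζ (p ^ r) ∧ E ≤ k ⊔ ℚ⟮ζ⟯ ∧ IsGalois k (extendScalars h) ∧
      IsCyclic (extendScalars h ≃ₐ[k] extendScalars h) ∧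
      Module.finrank k (extendScalars h) = p ^ a := by
  have : NumberField k := { to_charZero := inferInstance, to_finiteDimensional := inferInstance }
  obtain ⟨ζ, hζ⟩ := exists_isPrimitiveRoot_qbar (p ^ cycloLevel p k a) (pow_ne_zero _ hp.ne_zero)
  obtain ⟨E, hE, hgal, hcyc, hdeg⟩ :=
    exists_cyclic_layer_in p hp hp2 k a (cycloLevel p k a) le_rfl Qb ζ hζ
  have hk : k ≤ E.restrictScalars ℚ := fun x hx => by
    rw [IntermediateField.mem_restrictScalars]
    exact E.algebraMap_mem ⟨x, hx⟩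
  have heq : extendScalars hk = E := by
    ext x
    rfl
  refine ⟨cycloLevel p k a, ζ, E.restrictScalars ℚ, hk, cycloLevel_pos p k a, hζ, ?_, ?_, ?_, ?_⟩
  · rw [← IntermediateField.restrictScalars_adjoin_eq_sup]
    exact fun x hx => hE hx
  · rw [heq]; exact hgal
  · rw [heq]; exact hcyc
  · rw [heq]; exact hdeg

/-- **Z1, unramified form.**  If `k` is unramified outside `S` and `p ∈ S`, the layer `E` of
degree `p ^ a` of the cyclotomic `ℤ_p`-extension of `k` is unramified outside `S`. -/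
theorem exists_cyclic_layer_unramified (p : ℕ) [Fact p.Prime] (hp2 : p ≠ 2)
    {S : Finset Nat.Primes} (hpS : ExtCitation.pPrime p ∈ S)
    (k : IntermediateField ℚ Qb) (hk : k.IsUnramifiedOutside S) (a : ℕ) :
    ∃ (E : IntermediateField ℚ Qb) (h : k ≤ E), E.IsUnramifiedOutside S ∧
      IsGalois k (extendScalars h) ∧ IsCyclic (extendScalars h ≃ₐ[k] extendScalars h) ∧
      Module.finrank k (extendScalars h) = p ^ a := by
  have := hk.1
  obtain ⟨r, ζ, E, h, hr, hζ, hE, hgal, hcyc, hdeg⟩ :=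
    exists_cyclic_layer_qbar p Fact.out hp2 k a
  refine ⟨E, h, IntermediateField.IsUnramifiedOutside.of_le hE ?_, hgal, hcyc, hdeg⟩
  have h1 : ζ ^ (p ^ r) = 1 := hζ.pow_eq_one
  refine H87.isUnramifiedOutside_sup_adjoin_of_unit (n := p ^ r)
    (pow_ne_zero _ (Fact.out : p.Prime).ne_zero) (H87.coprime_pow_of_mem hpS r) hk ?_ ?_
  · rw [h1]; exact k.one_mem
  · intro q _ A _
    rw [h1]
    exact ⟨A.one_mem, by rw [inv_one]; exact A.one_mem⟩

end Fermat.Agent.S55.H15
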