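/-
S55 / Program C, package C8 (helper15): the two cyclotomic-layer leaves of the concrete exports
X4 / X5 (helper29, SPEC v2 part 3), over helper74's index `H74.QSLayer S F` of finite Galois layers
of `F` inside `ℚ_S`.

* `exists_qsLayer_cyclic` (CYCLO-EXACT) : for `F ⊆ ℚ̄` unramified outside `S ∋ p`, `p` odd, and
  every `a` there is a layer `L` with `Gal(L.K / F)` cyclic of order exactly `p ^ a`;
* `exists_qsLayer_cyclic_locDegAt` (CYCLO-DEG) : for a finite set `W` of finite places of `F` and
  `m : ℕ` there is a cyclic layer `L` of `p`-power degree whose local degrees `H29.locDegAt` at the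
  places of `W` are divisible by `p ^ m`.

Both are the layers of the cyclotomic `ℤ_p`-extension of `F`: wrappers of
`H15.exists_cyclic_layer_unramified` (Z1) and
`H32.exists_cyclic_layer_unramified_pow_dvd_locDegAt` (Z1 + Z2).
-/
import Fermat.Agent.S55.H15.CycloLayerQbar
import Fermat.Agent.S55.H32.CycGrowthQbar
import Fermat.Agent.S55.H74.GalLayerH
import Fermat.Agent.S55.H29.C8Ex

set_option autoImplicit false

namespace Fermat.Agent.S55.H15

open IntermediateField Fermat.Agent.S55

local notation "Qb" => AlgebraicClosure ℚ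

/-- A normal layer `E / F` inside `ℚ̄` with `E` unramified outside `S`, as a `QSLayer`. -/
noncomputable def qsLayerOf {S : Finset Nat.Primes} {F E : IntermediateField ℚ Qb} (h : F ≤ E)
    (hE : E.IsUnramifiedOutside S) (hn : Normal ↥F ↥(extendScalars h)) : H74.QSLayer S F where
  K := extendScalars h
  normal := hn
  unr := by
    have e : (extendScalars h).restrictScalars ℚ = E :=
      IntermediateField.extendScalars_restrictScalars h
    rw [e]
    exact hE

@[simp] theorem qsLayerOf_K {S : Finset Nat.Primes} {F E : IntermediateField ℚ Qb} (h : F ≤ E)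
    (hE : E.IsUnramifiedOutside S) (hn : Normal ↥F ↥(extendScalars h)) :
    (qsLayerOf h hE hn).K = extendScalars h := rfl

/-- **(CYCLO-EXACT).**  Cyclic layers of every `p`-power degree inside `ℚ_S`. -/
theorem exists_qsLayer_cyclic (p : ℕ) [Fact p.Prime] (hp2 : p ≠ 2) {S : Finset Nat.Primes}
    (hpS : ExtCitation.pPrime p ∈ S) (F : IntermediateField ℚ Qb)
    (hF : F.IsUnramifiedOutside S) (a : ℕ) :
    ∃ L : H74.QSLayer S F, IsCyclic (↥L.K ≃ₐ[↥F] ↥L.K) ∧ Module.finrank ↥F ↥L.K = p ^ a := by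
  obtain ⟨E, h, hE, hgal, hcyc, hdeg⟩ := exists_cyclic_layer_unramified p hp2 hpS F hF a
  exact ⟨qsLayerOf h hE hgal.to_normal, hcyc, hdeg⟩

/-- **(CYCLO-DEG).**  Cyclic layers of `p`-power degree inside `ℚ_S` whose local degrees at the
places of a given finite set are divisible by a given power of `p`. -/
theorem exists_qsLayer_cyclic_locDegAt (p : ℕ) [Fact p.Prime] (hp2 : p ≠ 2)
    {S : Finset Nat.Primes} (hpS : ExtCitation.pPrime p ∈ S) (F : IntermediateField ℚ Qb)
    (hF : F.IsUnramifiedOutside S) (W : Finset (H88.FinPlace ↥F)) (m : ℕ) :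
    ∃ L : H74.QSLayer S F, IsCyclic (↥L.K ≃ₐ[↥F] ↥L.K) ∧
      (∃ n : ℕ, Module.finrank ↥F ↥L.K = p ^ n) ∧
      ∀ v ∈ W, p ^ m ∣ H29.locDegAt ↥F ↥L.K v := by
  classical
  obtain ⟨a, E, h, hgal, hE, hcyc, hdeg, hdvd⟩ :=
    H32.exists_cyclic_layer_unramified_pow_dvd_locDegAt p hp2 hpS F hF
      (W.image fun v => v.1) m
  refine ⟨qsLayerOf h hE hgal.to_normal, hcyc, ⟨a, hdeg⟩, fun v hv => ?_⟩
  exact hdvd v (Finset.mem_image_of_mem _ hv)

end Fermat.Agent.S55.H15
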