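import Mathlib

/-!
# S55 (Program C), package C3: Hilbert 90 for subgroups of a Galois group

For a finite field extension `L/K` and ANY subgroup `S ≤ Aut_K(L)`, the first cohomology of `S`
with values in `Lˣ` (the restriction to `S` of `Rep.ofAlgebraAutOnUnits K L`) vanishes.
(Mathlib's `groupCohomology.H1ofAutOnUnitsUnique` is the case `S = ⊤`; the proof is the same
Dedekind independence argument.)
-/

set_option autoImplicit false

open CategoryTheory groupCohomology Rep

namespace Fermat.Agent.S55.H15

variable {K L : Type} [Field K] [Field L] [Algebra K L] [FiniteDimensional K L]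

/-- Noether's form of Hilbert 90 for a subgroup `S ≤ Aut_K(L)`: a function `f : S → Lˣ` with
`f (g h) = g (f h) * f g` is of the form `g ↦ g β / β`. -/
theorem exists_units_of_cocycle_subgroup (S : Subgroup (L ≃ₐ[K] L)) (f : S → Lˣ)
    (hf : ∀ g h : S, f (g * h) = Units.map ((g : L ≃ₐ[K] L) : L →* L) (f h) * f g) :
    ∃ β : Lˣ, ∀ g : S, Units.map ((g : L ≃ₐ[K] L) : L →* L) β / β = f g := by
  classical
  have hli : LinearIndependent L (fun g : S => (((g : L ≃ₐ[K] L) : L →* L) : L → L)) :=
    LinearIndependent.comp (ι' := S) (linearIndependent_monoidHom L L)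
      (fun g => ((g : L ≃ₐ[K] L) : L →* L))
      (fun x y h => by
        apply Subtype.ext
        ext z
        exact DFunLike.congr_fun h z)
  have hne : ∃ z : L, ∑ h : S, (f h : L) * (h : L ≃ₐ[K] L) z ≠ 0 := by
    by_contra hcon
    push Not at hcon
    have h0 : ∑ h : S, (f h : L) • (((h : L ≃ₐ[K] L) : L →* L) : L → L) = 0 := by
      funext z
      simpa [Finset.sum_apply] using hcon z
    have h1 := (Fintype.linearIndependent_iff.1 hli) (fun h => (f h : L)) h0 1
    exact Units.ne_zero (f 1) h1
  obtain ⟨z, hz⟩ := hne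
  refine ⟨(Units.mk0 _ hz)⁻¹, fun g => ?_⟩
  rw [map_inv, div_inv_eq_mul, inv_mul_eq_iff_eq_mul]
  apply Units.ext
  simp only [Units.val_mul, Units.coe_map, Units.val_mk0, MonoidHom.coe_coe, map_sum, map_mul]
  rw [Finset.sum_mul]
  have hfg : ∀ h : S, (g : L ≃ₐ[K] L) (f h : L) * (g : L ≃ₐ[K] L) ((h : L ≃ₐ[K] L) z) * (f g : L)
      = (f (g * h) : L) * ((g * h : S) : L ≃ₐ[K] L) z := by
    intro h
    rw [hf g h]
    simp only [Units.val_mul, Units.coe_map, MonoidHom.coe_coe, Subgroup.coe_mul,
      AlgEquiv.mul_apply]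
    ring
  simp_rw [hfg]
  exact (Fintype.sum_bijective (fun h : S => g * h) (Group.mulLeft_bijective g) _ _
    (fun h => rfl)).symm

/-- **Hilbert 90 for subgroups**: `H¹(S, Lˣ) = 0` for every subgroup `S ≤ Aut_K(L)`. -/
theorem isZero_H1_res_subtype (S : Subgroup (L ≃ₐ[K] L)) :
    Limits.IsZero (groupCohomology (res S.subtype (Rep.ofAlgebraAutOnUnits K L)) 1) := by
  have hsub : Subsingleton (H1 (res S.subtype (Rep.ofAlgebraAutOnUnits K L))) := by
    refine ⟨fun a b => ?_⟩
    have key : ∀ a : H1 (res S.subtype (Rep.ofAlgebraAutOnUnits K L)), a = 0 := by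
      intro a
      refine H1_induction_on a fun x => (H1π_eq_zero_iff _).2 ?_
      have hx := (mem_cocycles₁_iff (A := res S.subtype (Rep.ofAlgebraAutOnUnits K L)) x.1).1 x.2
      obtain ⟨β, hβ⟩ := exists_units_of_cocycle_subgroup S (fun g => Additive.toMul (x.1 g))
        (fun g h => by
          have := hx g h
          exact this)
      refine ⟨Additive.ofMul β, funext fun g => ?_⟩
      have := hβ g
      exact this
    rw [key a, key b]
  exact ModuleCat.isZero_of_subsingleton _

end Fermat.Agent.S55.H15
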