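import Mathlib
import Fermat.Agent.S55.H66.LocalSpec
import Fermat.Agent.S55.H55.InfRes2Full
import Fermat.Agent.S55.H15.Hilbert90Sub

/-!
# S55 (Program C), package C3: leaves L6c `LeafInflInj` and L6d `LeafInfRes`

For finite Galois extensions `F ⊆ L ⊆ E` inside `PadicAlgCl q` (the proofs use nothing about the
ambient field), with `G = Gal(E/F)`, `S = ker (G → Gal(L/F))`:

* `quotEquiv : G ⧸ S ≃* Gal(L/F)`, `invEquiv : (Eˣ)^S ≃ Lˣ` (Galois correspondence),
  `h2Iso : H²(G ⧸ S, (Eˣ)^S) ≅ H²(Gal(L/F), Lˣ)`;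
* `inflH2_eq`  : the inflation `inflH2 h` of `S55/H66` is the abstract inflation of `S55/H55`
  composed with `h2Iso⁻¹`;
* `res_eq`     : the abstract restriction to `S` factors through `resH2 h`;
* `isZero_H1_res_subtype` (`Hilbert90Sub.lean`) : `H¹(S, Eˣ) = 0`;
* `inflH2_injective`, `exists_inflH2_eq` : the two halves of inflation–restriction in degree 2;
* `leafInflInj : LeafInflInj q`, `leafInfRes : LeafInfRes q` : the leaves, verbatim.
-/

set_option autoImplicit false

noncomputable section

namespace Fermat.Agent.S55.H15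

open CategoryTheory groupCohomology Rep IntermediateField Fermat.Agent.S55.H66

/-- Linear maps between the carriers of two representations (with their own module structures;
for `k = ℤ` this avoids the competing instance `AddCommGroup.toIntModule`). -/
abbrev RepLin {k G H : Type} [CommRing k] [Monoid G] [Monoid H] (A : Rep.{0, 0, 0} k G)
    (B : Rep.{0, 0, 0} k H) : Type := A.V →ₗ[k] B.V

/-- Linear equivalences between the carriers of two representations. -/
abbrev RepLinEquiv {k G H : Type} [CommRing k] [Monoid G] [Monoid H] (A : Rep.{0, 0, 0} k G)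
    (B : Rep.{0, 0, 0} k H) : Type := A.V ≃ₗ[k] B.V

variable {q : ℕ} [Fact q.Prime]
variable {F : Type} [Field F] [Algebra F (PadicAlgCl q)]
variable {L E : IntermediateField F (PadicAlgCl q)}

/-- Restriction `Gal(E/F) → Gal(L/F)` is surjective. -/
theorem resHom_surjective [Normal F L] [Normal F E] (h : L ≤ E) :
    Function.Surjective (resHom h) := by
  letI : Algebra L E := (inclusion h).toRingHom.toAlgebra
  haveI : IsScalarTower F L E := IsScalarTower.of_algebraMap_eq (fun _ => rfl)
  exact AlgEquiv.restrictNormalHom_surjective E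

theorem mem_ker_resHom_iff [Normal F L] (h : L ≤ E) (σ : E ≃ₐ[F] E) :
    σ ∈ (resHom h).ker ↔ ∀ x : L, σ (inclusion h x) = inclusion h x := by
  rw [MonoidHom.mem_ker]
  constructor
  · intro hσ x
    apply Subtype.ext
    rw [← resHom_apply h σ x, hσ]
    rfl
  · intro hσ
    ext x
    rw [resHom_apply h σ x, hσ x]
    rfl

/-- `upHom` lands in the kernel of `resHom`. -/
theorem upHom_mem_ker [Normal F L] (h : L ≤ E)
    (τ : (extendScalars h) ≃ₐ[L] (extendScalars h)) : upHom h τ ∈ (resHom h).ker := by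
  rw [mem_ker_resHom_iff]
  intro x
  apply Subtype.ext
  rw [upHom_apply_coe]
  have e : (upEquiv h).symm (inclusion h x) = algebraMap L (extendScalars h) x :=
    Subtype.ext (upEquiv_symm_apply_coe h (inclusion h x))
  rw [e, AlgEquiv.commutes]
  rfl

instance finiteDimensional_extendScalars [FiniteDimensional F E] (h : L ≤ E) :
    FiniteDimensional L (extendScalars h) := by
  haveI : Module.Finite F (extendScalars h) :=
    Module.Finite.equiv (upEquiv h).symm.toLinearEquiv
  exact Module.Finite.of_restrictScalars_finite F L (extendScalars h)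

instance isGalois_extendScalars [FiniteDimensional F E] [IsGalois F E] (h : L ≤ E) :
    IsGalois L (extendScalars h) := by
  haveI : IsGalois F (extendScalars h) := IsGalois.of_algEquiv (upEquiv h).symm
  exact IsGalois.tower_top_of_isGalois F L (extendScalars h)

/-- The fixed field of `ker (Gal(E/F) → Gal(L/F))` is `L`. -/
theorem exists_of_fixed [Normal F L] [FiniteDimensional F E] [IsGalois F E] (h : L ≤ E) (x : E)
    (hx : ∀ σ ∈ (resHom h).ker, σ x = x) : ∃ y : L, inclusion h y = x := by
  have hfix : ∀ τ : (extendScalars h) ≃ₐ[L] (extendScalars h),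
      τ ((upEquiv h).symm x) = (upEquiv h).symm x := by
    intro τ
    apply Subtype.ext
    rw [← upHom_apply_coe h τ x, hx _ (upHom_mem_ker h τ), upEquiv_symm_apply_coe]
  have hbot := (IsGalois.mem_bot_iff_fixed (F := L) (E := extendScalars h)
    ((upEquiv h).symm x)).2 hfix
  obtain ⟨y, hy⟩ := IntermediateField.mem_bot.1 hbot
  refine ⟨y, Subtype.ext ?_⟩
  have := congrArg (fun t : extendScalars h => (t : PadicAlgCl q)) hy
  simp only [upEquiv_symm_apply_coe] at this
  rw [← this]
  rfl

section Coh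

variable [FiniteDimensional F L] [IsGalois F L] [FiniteDimensional F E] [IsGalois F E] (h : L ≤ E)

/-- `Gal(E/F) ⧸ Gal(E/L) ≃ Gal(L/F)`. -/
def quotEquiv : (E ≃ₐ[F] E) ⧸ (resHom h).ker ≃* (L ≃ₐ[F] L) :=
  QuotientGroup.quotientKerEquivOfSurjective (resHom h) (resHom_surjective h)

theorem quotEquiv_mk (σ : E ≃ₐ[F] E) : quotEquiv h (QuotientGroup.mk σ) = resHom h σ := rfl

/-- `Lˣ → (Eˣ)^{Gal(E/L)}`. -/
def unitsToInv : RepLin (Rep.ofAlgebraAutOnUnits F L)
    ((Rep.ofAlgebraAutOnUnits F E).quotientToInvariants (resHom h).ker) :=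
  (unitsIncl h).codRestrict
    (Representation.invariants ((Rep.ofAlgebraAutOnUnits F E).ρ.comp (resHom h).ker.subtype))
    (fun x σ => by
      have hσ := (mem_ker_resHom_iff h σ.1).1 σ.2
      show Additive.ofMul (Units.map ((σ.1 : E ≃ₐ[F] E) : E →* E)
        (Units.map ((inclusion h : L →ₐ[F] E) : L →* E) (Additive.toMul x)))
          = Additive.ofMul (Units.map ((inclusion h : L →ₐ[F] E) : L →* E) (Additive.toMul x))
      exact congrArg Additive.ofMul (Units.ext (hσ _)))

theorem unitsToInv_coe (x : Additive Lˣ) : (unitsToInv h x).1 = unitsIncl h x :=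
  rfl

theorem unitsToInv_bijective : Function.Bijective (unitsToInv h) := by
  constructor
  · intro x y hxy
    have h1 : unitsIncl h x = unitsIncl h y := congrArg Subtype.val hxy
    have h2 : (Units.map ((inclusion h : L →ₐ[F] E) : L →* E) (Additive.toMul x))
        = Units.map ((inclusion h : L →ₐ[F] E) : L →* E) (Additive.toMul y) := h1
    have h3 : ((Additive.toMul x : Lˣ) : L) = ((Additive.toMul y : Lˣ) : L) :=
      (inclusion h).injective (congrArg Units.val h2)
    exact congrArg Additive.ofMul (Units.ext h3)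
  · rintro ⟨v, hv⟩
    have hfix : ∀ σ ∈ (resHom h).ker,
        σ ((Additive.toMul v : Eˣ) : E) = ((Additive.toMul v : Eˣ) : E) := by
      intro σ hσ
      have := hv ⟨σ, hσ⟩
      exact congrArg (fun t : Additive Eˣ => ((Additive.toMul t : Eˣ) : E)) this
    obtain ⟨y, hy⟩ := exists_of_fixed h _ hfix
    have hy0 : y ≠ 0 := by
      rintro rfl
      rw [map_zero] at hy
      exact (Additive.toMul v : Eˣ).ne_zero hy.symm
    refine ⟨Additive.ofMul (Units.mk0 y hy0), Subtype.ext ?_⟩
    show Additive.ofMul (Units.map ((inclusion h : L →ₐ[F] E) : L →* E) (Units.mk0 y hy0)) = v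
    have : Units.map ((inclusion h : L →ₐ[F] E) : L →* E) (Units.mk0 y hy0) = Additive.toMul v :=
      Units.ext hy
    rw [this]
    rfl

/-- `(Eˣ)^{Gal(E/L)} ≃ Lˣ`. -/
def invEquiv : RepLinEquiv ((Rep.ofAlgebraAutOnUnits F E).quotientToInvariants (resHom h).ker)
    (Rep.ofAlgebraAutOnUnits F L) :=
  (LinearEquiv.ofBijective (unitsToInv h) (unitsToInv_bijective h)).symm

theorem invEquiv_symm_apply (x : Additive Lˣ) : (invEquiv h).symm x = unitsToInv h x := rfl

end Coh

section Coh2

variable [FiniteDimensional F L] [IsGalois F L] [FiniteDimensional F E] [IsGalois F E] (h : L ≤ E)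

theorem apply_inclusion (σ : E ≃ₐ[F] E) (y : L) :
    σ (inclusion h y) = inclusion h (resHom h σ y) :=
  Subtype.ext (resHom_apply h σ y).symm

theorem invEquiv_comm (g : (E ≃ₐ[F] E) ⧸ (resHom h).ker) :
    (invEquiv h).toLinearMap ∘ₗ
        ((Rep.ofAlgebraAutOnUnits F E).quotientToInvariants (resHom h).ker).ρ g
      = (Rep.ofAlgebraAutOnUnits F L).ρ (quotEquiv h g) ∘ₗ (invEquiv h).toLinearMap := by
  induction g using QuotientGroup.induction_on with
  | H σ =>
    refine LinearMap.ext fun v => ?_
    obtain ⟨x, rfl⟩ := (invEquiv h).symm.surjective v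
    apply (invEquiv h).symm.injective
    simp only [LinearMap.coe_comp, LinearEquiv.coe_coe, Function.comp_apply,
      LinearEquiv.apply_symm_apply, LinearEquiv.symm_apply_apply]
    apply Subtype.ext
    show Additive.ofMul (Units.map ((σ : E ≃ₐ[F] E) : E →* E)
        (Units.map ((inclusion h : L →ₐ[F] E) : L →* E) (Additive.toMul x)))
      = Additive.ofMul (Units.map ((inclusion h : L →ₐ[F] E) : L →* E)
        (Units.map ((resHom h σ : L ≃ₐ[F] L) : L →* L) (Additive.toMul x)))
    exact congrArg Additive.ofMul (Units.ext (apply_inclusion h σ _))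

/-- `H²(Gal(E/F) ⧸ Gal(E/L), (Eˣ)^{Gal(E/L)}) ≅ H²(Gal(L/F), Lˣ)`. -/
def h2Iso : groupCohomology
      ((Rep.ofAlgebraAutOnUnits F E).quotientToInvariants (resHom h).ker) 2 ≅
    groupCohomology (Rep.ofAlgebraAutOnUnits F L) 2 :=
  mapIso (quotEquiv h) (invEquiv h) (invEquiv_comm h) 2

/-- The inflation of `S55/H66` is the abstract inflation, up to the identification `h2Iso`. -/
theorem inflH2_eq :
    inflH2 h = (h2Iso h).inv ≫
      map (QuotientGroup.mk' (resHom h).ker)
        (ofHom <| (Rep.ofAlgebraAutOnUnits F E).ρ.quotientToInvariants_lift (resHom h).ker) 2 := by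
  rw [h2Iso, mapIso_inv, ← map_comp]
  exact map_congr (MonoidHom.ext fun σ => rfl) (by ext x; rfl) 2

end Coh2

section Main

variable [FiniteDimensional F L] [IsGalois F L] [FiniteDimensional F E] [IsGalois F E] (h : L ≤ E)

/-- **L6c**: inflation `H²(Gal(L/F), Lˣ) → H²(Gal(E/F), Eˣ)` is injective. -/
theorem inflH2_injective : Function.Injective (inflH2 h).hom := by
  have h1 := Fermat.Agent.S55.H55.InfRes2.inf_injective (Rep.ofAlgebraAutOnUnits F E)
    (resHom h).ker (isZero_H1_res_subtype (resHom h).ker)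
  have h2 : Function.Injective (h2Iso h).inv.hom :=
    (ModuleCat.mono_iff_injective _).1 inferInstance
  rw [inflH2_eq]
  exact h1.comp h2

/-- An element of `ker (Gal(E/F) → Gal(L/F))` as an element of `Gal(E/L)`. -/
def kerToGal : (resHom h).ker →* ((extendScalars h) ≃ₐ[L] (extendScalars h)) where
  toFun σ := AlgEquiv.ofRingEquiv
    (f := ((upEquiv h).toRingEquiv.trans (σ.1 : E ≃ₐ[F] E).toRingEquiv).trans
      (upEquiv h).symm.toRingEquiv)
    (fun y => by
      have hσ := (mem_ker_resHom_iff h σ.1).1 σ.2 y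
      have e1 : upEquiv h (algebraMap L (extendScalars h) y) = inclusion h y := Subtype.ext rfl
      show (upEquiv h).symm ((σ.1 : E ≃ₐ[F] E) (upEquiv h (algebraMap L (extendScalars h) y))) = _
      rw [e1, hσ, ← e1, AlgEquiv.symm_apply_apply])
  map_one' := by
    ext x
    show (((upEquiv h).symm ((1 : E ≃ₐ[F] E) (upEquiv h x)) : extendScalars h) : PadicAlgCl q) = _
    rw [AlgEquiv.one_apply, AlgEquiv.symm_apply_apply]
    rfl
  map_mul' σ τ := by
    ext x
    show (((upEquiv h).symm (((σ.1 * τ.1 : E ≃ₐ[F] E)) (upEquiv h x)) : extendScalars h) :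
        PadicAlgCl q)
      = (((upEquiv h).symm ((σ.1 : E ≃ₐ[F] E) (upEquiv h ((upEquiv h).symm
          ((τ.1 : E ≃ₐ[F] E) (upEquiv h x))))) : extendScalars h) : PadicAlgCl q)
    rw [AlgEquiv.apply_symm_apply, AlgEquiv.mul_apply]

theorem kerToGal_apply (σ : (resHom h).ker) (x : extendScalars h) :
    kerToGal h σ x = (upEquiv h).symm ((σ.1 : E ≃ₐ[F] E) (upEquiv h x)) := rfl

theorem upHom_kerToGal (σ : (resHom h).ker) : upHom h (kerToGal h σ) = σ.1 := by
  ext x
  show ((upEquiv h ((kerToGal h σ) ((upEquiv h).symm x)) : E) : PadicAlgCl q) = _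
  rw [kerToGal_apply, AlgEquiv.apply_symm_apply, AlgEquiv.apply_symm_apply]

/-- `(E over L)ˣ → Eˣ`, written additively. -/
def unitsDown : RepLin (Rep.res (kerToGal h) (Rep.ofAlgebraAutOnUnits L (extendScalars h)))
    (Rep.res (resHom h).ker.subtype (Rep.ofAlgebraAutOnUnits F E)) :=
  (MonoidHom.toAdditive (Units.map (((upEquiv h) : extendScalars h →ₐ[F] E) :
    extendScalars h →* E))).toIntLinearMap

/-- The coefficient map comparing the two descriptions of `Gal(E/L)` acting on `Eˣ`. -/
def downRep : Rep.res (kerToGal h) (Rep.ofAlgebraAutOnUnits L (extendScalars h)) ⟶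
    Rep.res (resHom h).ker.subtype (Rep.ofAlgebraAutOnUnits F E) :=
  Rep.ofHom ⟨unitsDown h, fun σ => by
    refine LinearMap.ext fun x => ?_
    show Additive.ofMul (Units.map (((upEquiv h) : extendScalars h →ₐ[F] E) : extendScalars h →* E)
        (Units.map ((kerToGal h σ : (extendScalars h) ≃ₐ[L] (extendScalars h)) :
          extendScalars h →* extendScalars h) (Additive.toMul x)))
      = Additive.ofMul (Units.map ((σ.1 : E ≃ₐ[F] E) : E →* E)
        (Units.map (((upEquiv h) : extendScalars h →ₐ[F] E) : extendScalars h →* E)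
          (Additive.toMul x)))
    refine congrArg Additive.ofMul (Units.ext ?_)
    show upEquiv h (kerToGal h σ _) = (σ.1 : E ≃ₐ[F] E) (upEquiv h _)
    rw [kerToGal_apply, AlgEquiv.apply_symm_apply]⟩

/-- The abstract restriction to `ker (Gal(E/F) → Gal(L/F))` factors through `resH2`. -/
theorem res_eq :
    map (resHom h).ker.subtype (𝟙 (Rep.res (resHom h).ker.subtype (Rep.ofAlgebraAutOnUnits F E))) 2
      = resH2 h ≫ map (kerToGal h) (downRep h) 2 := by
  rw [resH2, ← map_comp]
  refine map_congr (MonoidHom.ext fun σ => (upHom_kerToGal h σ).symm) ?_ 2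
  refine LinearMap.ext fun x => ?_
  show x = Additive.ofMul (Units.map (((upEquiv h) : extendScalars h →ₐ[F] E) :
      extendScalars h →* E)
    (Units.map (((upEquiv h).symm : E →ₐ[F] extendScalars h) : E →* extendScalars h)
      (Additive.toMul x)))
  have e : Units.map (((upEquiv h) : extendScalars h →ₐ[F] E) : extendScalars h →* E)
      (Units.map (((upEquiv h).symm : E →ₐ[F] extendScalars h) : E →* extendScalars h)
        (Additive.toMul x)) = Additive.toMul x :=
    Units.ext (AlgEquiv.apply_symm_apply (upEquiv h) _)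
  rw [e]
  rfl

/-- **L6d**: exactness of inflation–restriction at `H²(Gal(E/F), Eˣ)`. -/
theorem exists_inflH2_eq (x : groupCohomology.H2 (Rep.ofAlgebraAutOnUnits F E))
    (hx : (resH2 h).hom x = 0) : ∃ y, (inflH2 h).hom y = x := by
  have hres : (map (resHom h).ker.subtype
      (𝟙 (Rep.res (resHom h).ker.subtype (Rep.ofAlgebraAutOnUnits F E))) 2).hom x = 0 := by
    rw [res_eq]
    show (map (kerToGal h) (downRep h) 2).hom ((resH2 h).hom x) = 0
    rw [hx, map_zero]
  obtain ⟨y', hy'⟩ := Fermat.Agent.S55.H55.InfRes2.exists_inf_eq_of_res_eq_zero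
    (Rep.ofAlgebraAutOnUnits F E) (resHom h).ker (isZero_H1_res_subtype (resHom h).ker) x hres
  refine ⟨(h2Iso h).hom.hom y', ?_⟩
  rw [inflH2_eq]
  show (map (QuotientGroup.mk' (resHom h).ker) _ 2).hom
    ((h2Iso h).inv.hom ((h2Iso h).hom.hom y')) = x
  have e : (h2Iso h).inv.hom ((h2Iso h).hom.hom y') = y' := by
    have := congrArg (fun f => f.hom y') (h2Iso h).hom_inv_id
    exact this
  rw [e]
  exact hy'

end Main

/-- **Leaf L6c** of package C3 (`S55/H66/LocalSpec.lean`), verbatim. -/
theorem leafInflInj (q : ℕ) [Fact q.Prime] : LeafInflInj q :=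
  fun _ _ _ _ _ _ _ _ _ _ _ _ h => inflH2_injective h

/-- **Leaf L6d** of package C3 (`S55/H66/LocalSpec.lean`), verbatim. -/
theorem leafInfRes (q : ℕ) [Fact q.Prime] : LeafInfRes q :=
  fun _ _ _ _ _ _ _ _ _ _ _ _ h x hx => exists_inflH2_eq h x hx

end Fermat.Agent.S55.H15
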